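import Mathlib.Computability.TuringMachine.PostTuringMachine
import Mathlib.ModelTheory.Encoding
import Mathlib.ModelTheory.Semantics

/-!
# The sentence of a finite machine

Half tapes are built from the blank one by one unary function for each letter, and an extra point
absorbs what is out of range. A ternary relation for each state holds of a time and the two halves
of a tape. Each fact is the start or follows from a fact at an earlier time, so it is correct in a
finite structure, and the last axiom asks for a halting fact.
-/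

set_option autoImplicit false

namespace FA.Trakhtenbrot

open FirstOrder Language

/-- The language with `m` unary functions, three constants, one binary relation and `s` ternary
relations. -/
def machineLanguage (m s : ℕ) : Language :=
  ⟨fun k => match k with
    | 0 => Fin 3
    | 1 => Fin m
    | _ => Empty,
   fun k => match k with
    | 2 => Fin 1
    | 3 => Fin s
    | _ => Empty⟩

variable {m s : ℕ}

instance instEncodableMachineFunctions : ∀ k, Encodable ((machineLanguage m s).Functions k)
  | 0 => inferInstanceAs (Encodable (Fin 3))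
  | 1 => inferInstanceAs (Encodable (Fin m))
  | _ + 2 => inferInstanceAs (Encodable Empty)

instance instEncodableMachineRelations : ∀ k, Encodable ((machineLanguage m s).Relations k)
  | 0 => inferInstanceAs (Encodable Empty)
  | 1 => inferInstanceAs (Encodable Empty)
  | 2 => inferInstanceAs (Encodable (Fin 1))
  | 3 => inferInstanceAs (Encodable (Fin s))
  | _ + 4 => inferInstanceAs (Encodable Empty)

/-- The code of a sentence: Mathlib's list of symbols, with the standard encoding. -/
def sentenceCode (φ : (machineLanguage m s).Sentence) : ℕ :=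
  Encodable.encode (BoundedFormula.listEncode φ)

theorem sentenceCode_injective : Function.Injective (sentenceCode (m := m) (s := s)) := by
  intro φ ψ h
  have h1 := BoundedFormula.listEncode_sigma_injective (α := Empty) (a₁ := ⟨0, φ⟩) (a₂ := ⟨0, ψ⟩)
    (Encodable.encode_injective h)
  simpa using h1

section Machine

variable (Γ Q : Type) [Fintype Γ] [Fintype Q]

/-- The language of the machines with these letters and states. -/
abbrev Lang : Language := machineLanguage (Fintype.card Γ) (Fintype.card Q)

variable {Γ} {α : Type} {n : ℕ}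

/-- A letter applied to a term. -/
noncomputable def fn (a : Γ) (t : (Lang Γ Q).Term α) : (Lang Γ Q).Term α :=
  Term.func (l := 1) (Fintype.equivFin Γ a) fun _ => t

variable (Γ)

/-- The blank half tape (`0`), the absorbing point (`1`) and the input (`2`). -/
def cst (i : Fin 3) : (Lang Γ Q).Term α :=
  Term.func (l := 0) i Fin.elim0

/-- One time is before another. -/
def bef (t u : (Lang Γ Q).Term (Empty ⊕ Fin n)) : (Lang Γ Q).BoundedFormula Empty n :=
  Relations.boundedFormula₂ (L := Lang Γ Q) (0 : Fin 1) t u

variable {Q}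

/-- The relation of a state. -/
noncomputable def fact (q : Q) (t x y : (Lang Γ Q).Term (Empty ⊕ Fin n)) :
    (Lang Γ Q).BoundedFormula Empty n :=
  Relations.boundedFormula (L := Lang Γ Q) (n := 3) (Fintype.equivFin Q q) ![t, x, y]

/-- A bound variable. -/
def bv (i : Fin n) : (Lang Γ Q).Term (Empty ⊕ Fin n) :=
  .var (.inr i)

variable {Γ} [Inhabited Γ] [Inhabited Q] [DecidableEq Γ] [DecidableEq Q]
  (M : Turing.TM0.Machine Γ Q)

/-- The absorbing point is fixed. -/
noncomputable def botFixed (a : Γ) : (Lang Γ Q).Sentence :=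
  .equal (fn Q a (cst Γ Q 1)) (cst Γ Q 1)

/-- The blank letter fixes the blank half tape. -/
noncomputable def blankFixed : (Lang Γ Q).Sentence :=
  .equal (fn Q default (cst Γ Q 0)) (cst Γ Q 0)

/-- Half tapes in range have one head and one tail. -/
noncomputable def separated (a b : Γ) : (Lang Γ Q).Sentence :=
  (BoundedFormula.imp (.equal (fn Q a (bv Γ 0)) (fn Q b (bv Γ 1)))
    (.equal (fn Q a (bv Γ 0)) (cst Γ Q 1) ⊔
      if a = b then .equal (bv Γ 0) (bv Γ (1 : Fin 2)) else ⊥)).all.all

/-- The blank half tape is in range. -/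
def blankNeBot : (Lang Γ Q).Sentence :=
  (BoundedFormula.equal (cst Γ Q 0) (cst Γ Q 1)).not

/-- The order of times is irreflexive. -/
def irrefl : (Lang Γ Q).Sentence :=
  (bef Γ Q (bv Γ 0) (bv Γ (0 : Fin 1))).not.all

/-- The order of times is transitive. -/
def trans : (Lang Γ Q).Sentence :=
  ((bef Γ Q (bv Γ 0) (bv Γ (1 : Fin 3))).imp
    ((bef Γ Q (bv Γ 1) (bv Γ 2)).imp (bef Γ Q (bv Γ 0) (bv Γ 2)))).all.all.all

/-- The fact `(time, x, y)` in the state `q` follows by one rule from the fact at the time in the
fourth variable, with the fifth variable as a part of its tape. -/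
noncomputable def rule (q : Q) (pa : Q × Γ) : (Lang Γ Q).BoundedFormula Empty 5 :=
  match M pa.1 pa.2 with
  | none => ⊥
  | some (p, .write b) => if p = q then
      .equal (bv Γ 2) (fn Q b (bv Γ 4)) ⊓ fact Γ pa.1 (bv Γ 3) (bv Γ 1) (fn Q pa.2 (bv Γ 4))
    else ⊥
  | some (p, .move .right) => if p = q then
      .equal (bv Γ 1) (fn Q pa.2 (bv Γ 4)) ⊓ fact Γ pa.1 (bv Γ 3) (bv Γ 4) (fn Q pa.2 (bv Γ 2))
    else ⊥
  | some (p, .move .left) => if p = q then
      .iSup fun c : Γ => .equal (bv Γ 2) (fn Q c (fn Q pa.2 (bv Γ 4))) ⊓
        fact Γ pa.1 (bv Γ 3) (fn Q c (bv Γ 1)) (fn Q pa.2 (bv Γ 4))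
    else ⊥

/-- Each fact is in range and is the start or follows from an earlier one. -/
noncomputable def justified (q : Q) : (Lang Γ Q).Sentence :=
  (BoundedFormula.imp (fact Γ q (bv Γ 0) (bv Γ 1) (bv Γ (2 : Fin 3)))
    ((BoundedFormula.equal (bv Γ 1) (cst Γ Q 1)).not ⊓
      (BoundedFormula.equal (bv Γ 2) (cst Γ Q 1)).not ⊓
      ((if q = default then .equal (bv Γ 1) (cst Γ Q 0) ⊓ .equal (bv Γ 2) (cst Γ Q 2) else ⊥) ⊔
        (bef Γ Q (bv Γ 3) (bv Γ 0) ⊓ BoundedFormula.iSup (rule M q)).ex.ex))).all.all.all

/-- A halting fact. -/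
noncomputable def final : (Lang Γ Q).Sentence :=
  BoundedFormula.iSup fun pa : {pa : Q × Γ // M pa.1 pa.2 = none} =>
    (fact Γ pa.1.1 (bv Γ 0) (bv Γ 1) (fn Q pa.1.2 (bv Γ (2 : Fin 3)))).ex.ex.ex

/-- The conjunction of the axioms of a machine. -/
noncomputable def machineSentence : (Lang Γ Q).Sentence :=
  BoundedFormula.iInf (fun a : Γ => botFixed (Q := Q) a) ⊓ blankFixed ⊓
    BoundedFormula.iInf (fun ab : Γ × Γ => separated (Q := Q) ab.1 ab.2) ⊓
    blankNeBot ⊓ irrefl ⊓ trans ⊓ BoundedFormula.iInf (justified M) ⊓ final M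

/-- The term of a half tape. -/
noncomputable def tapeTerm (w : List Γ) : (Lang Γ Q).Term α :=
  w.foldr (fn Q) (cst Γ Q 0)

/-- The input is the given half tape. -/
noncomputable def inputEquation (w : List Γ) : (Lang Γ Q).Sentence :=
  .equal (tapeTerm w) (cst Γ Q 2)

/-- The sentence true in a finite structure if and only if the machine halts on the word. -/
noncomputable def haltingSentence (w : List Γ) : (Lang Γ Q).Sentence :=
  machineSentence M ⊓ inputEquation w

end Machine

end FA.Trakhtenbrot
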