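import Mathlib.Data.Fintype.Prod
import Mathlib.Order.WellFounded
import Mathlib.Tactic.FinCases
import Fermat.Agent.Trakhtenbrot.Language

/-!
# A finite model gives a halting run

In a finite structure the order of times is well founded, so each fact is a configuration reached
from the start.
-/

set_option autoImplicit false

namespace FA.Trakhtenbrot

open FirstOrder Language Turing

variable {Γ Q : Type} [Fintype Γ] [Fintype Q] {D : Type*} [(Lang Γ Q).Structure D]

variable (Q) in
/-- The action of a letter. -/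
noncomputable def act (a : Γ) (x : D) : D :=
  Structure.funMap (L := Lang Γ Q) (n := 1) (Fintype.equivFin Γ a) fun _ => x

variable (Γ Q) in
/-- The three distinguished points. -/
def pt (i : Fin 3) : D :=
  Structure.funMap (L := Lang Γ Q) (n := 0) i Fin.elim0

variable (Γ Q) in
/-- The order of times. -/
def Before (x y : D) : Prop :=
  Structure.RelMap (L := Lang Γ Q) (n := 2) (0 : Fin 1) ![x, y]

variable (Γ) in
/-- The relation of a state. -/
def Holds (q : Q) (t x y : D) : Prop :=
  Structure.RelMap (L := Lang Γ Q) (n := 3) (Fintype.equivFin Q q) ![t, x, y]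

variable (Q) in
/-- The point of a half tape. -/
noncomputable def tapePoint (w : List Γ) : D :=
  w.foldr (act Q) (pt Γ Q 0)

variable {α : Type} {n : ℕ}

theorem realize_fn (a : Γ) (t : (Lang Γ Q).Term α) (v : α → D) :
    (fn Q a t).realize v = act Q a (t.realize v) :=
  rfl

theorem realize_cst (i : Fin 3) (v : α → D) : (cst Γ Q i).realize v = pt Γ Q i :=
  congrArg (Structure.funMap (L := Lang Γ Q) (n := 0) i) (funext fun k => k.elim0)

theorem realize_bef (t u : (Lang Γ Q).Term (Empty ⊕ Fin n)) (v : Empty → D) (xs : Fin n → D) :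
    (bef Γ Q t u).Realize v xs ↔
      Before Γ Q (t.realize (Sum.elim v xs)) (u.realize (Sum.elim v xs)) :=
  BoundedFormula.realize_rel₂

theorem realize_fact (q : Q) (t x y : (Lang Γ Q).Term (Empty ⊕ Fin n)) (v : Empty → D)
    (xs : Fin n → D) :
    (fact Γ q t x y).Realize v xs ↔ Holds Γ q (t.realize (Sum.elim v xs))
      (x.realize (Sum.elim v xs)) (y.realize (Sum.elim v xs)) := by
  refine BoundedFormula.realize_rel.trans (iff_of_eq (congrArg _ (funext fun i => ?_)))
  fin_cases i <;> rfl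

theorem realize_bv (i : Fin n) (v : Empty → D) (xs : Fin n → D) :
    (bv (Q := Q) Γ i).realize (Sum.elim v xs) = xs i :=
  rfl

theorem realize_tapeTerm (w : List Γ) (v : α → D) :
    (tapeTerm (Q := Q) w).realize v = tapePoint Q w := by
  induction w with
  | nil => exact realize_cst 0 v
  | cons a w ih => exact congrArg (act Q a) ih

theorem realize_equal (t u : (Lang Γ Q).Term (Empty ⊕ Fin n)) (v : Empty → D) (xs : Fin n → D) :
    (BoundedFormula.equal t u).Realize v xs ↔
      t.realize (Sum.elim v xs) = u.realize (Sum.elim v xs) :=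
  Iff.rfl

variable [Inhabited Γ] [Inhabited Q]

/-- One rule from an earlier fact. -/
def Follows (M : TM0.Machine Γ Q) (q p : Q) (a : Γ) (x y t u : D) : Prop :=
  (∃ b, M p a = some (q, .write b) ∧ y = act Q b u ∧ Holds Γ p t x (act Q a u)) ∨
  (M p a = some (q, .move .right) ∧ x = act Q a u ∧ Holds Γ p t u (act Q a y)) ∨
  (M p a = some (q, .move .left) ∧
    ∃ c : Γ, y = act Q c (act Q a u) ∧ Holds Γ p t (act Q c x) (act Q a u))

/-- The meaning of the axioms of a machine. -/
structure IsModel (M : TM0.Machine Γ Q) (D : Type*) [(Lang Γ Q).Structure D] : Prop where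
  bot_fixed : ∀ a : Γ, act Q a (pt Γ Q 1 : D) = pt Γ Q 1
  blank_fixed : act Q (default : Γ) (pt Γ Q 0 : D) = pt Γ Q 0
  separated : ∀ (a b : Γ) (x y : D), act Q a x = act Q b y →
    act Q a x = pt Γ Q 1 ∨ a = b ∧ x = y
  blank_ne_bot : (pt Γ Q 0 : D) ≠ pt Γ Q 1
  irrefl : ∀ x : D, ¬Before Γ Q x x
  trans : ∀ x y z : D, Before Γ Q x y → Before Γ Q y z → Before Γ Q x z
  justified : ∀ (q : Q) (τ x y : D), Holds Γ q τ x y → x ≠ pt Γ Q 1 ∧ y ≠ pt Γ Q 1 ∧
    ((q = default ∧ x = pt Γ Q 0 ∧ y = pt Γ Q 2) ∨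
      ∃ t u, Before Γ Q t τ ∧ ∃ p a, Follows M q p a x y t u)
  final : ∃ p a τ, ∃ x y : D, M p a = none ∧ Holds Γ p τ x (act Q a y)

variable [DecidableEq Γ] [DecidableEq Q] (M : TM0.Machine Γ Q)

omit [DecidableEq Γ] in
theorem realize_rule (q p : Q) (a : Γ) (v : Empty → D) (τ x y t u : D) :
    (rule M q (p, a)).Realize v ![τ, x, y, t, u] ↔ Follows M q p a x y t u := by
  rcases h : M p a with _ | ⟨r, ⟨d⟩ | b⟩
  · simp [rule, Follows, h]
  · by_cases hr : r = q
    · cases d <;> simp [rule, Follows, h, hr, BoundedFormula.realize_inf, realize_fn, realize_fact,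
        realize_bv, realize_equal, BoundedFormula.realize_iSup]
    · cases d <;> simp [rule, Follows, h, hr]
  · by_cases hr : r = q
    · simp [rule, Follows, h, hr, BoundedFormula.realize_inf, realize_fn, realize_fact, realize_bv,
        realize_equal]
    · simp [rule, Follows, h, hr]

theorem snoc_three (τ x y : D) (e : Fin 0 → D) :
    Fin.snoc (Fin.snoc (Fin.snoc e τ) x) y = ![τ, x, y] := by
  funext i
  fin_cases i <;> rfl

omit [Inhabited Γ] [Inhabited Q] [DecidableEq Q] in
theorem realize_separated (a b : Γ) : D ⊨ separated (Q := Q) a b ↔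
    ∀ x y : D, act Q a x = act Q b y → act Q a x = pt Γ Q 1 ∨ a = b ∧ x = y := by
  have h2 : ∀ (x y : D) (e : Fin 0 → D), Fin.snoc (Fin.snoc e x) y = ![x, y] := fun x y e => by
    funext i
    fin_cases i <;> rfl
  by_cases h : a = b <;>
    simp [separated, Sentence.Realize, Formula.Realize, h, h2, realize_fn, realize_cst, realize_bv,
      realize_equal]

omit [DecidableEq Γ] in
theorem realize_justified (q : Q) : D ⊨ justified M q ↔
    ∀ τ x y : D, Holds Γ q τ x y → x ≠ pt Γ Q 1 ∧ y ≠ pt Γ Q 1 ∧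
      ((q = default ∧ x = pt Γ Q 0 ∧ y = pt Γ Q 2) ∨
        ∃ t u, Before Γ Q t τ ∧ ∃ p a, Follows M q p a x y t u) := by
  by_cases h : q = default <;>
    simp [justified, Sentence.Realize, Formula.Realize, h, snoc_three, realize_bef,
      realize_fact, realize_cst, realize_bv, realize_equal, realize_rule,
      BoundedFormula.realize_iSup, and_assoc]

omit [Inhabited Γ] [DecidableEq Γ] [DecidableEq Q] in
theorem realize_final : D ⊨ final M ↔
    ∃ p a τ, ∃ x y : D, M p a = none ∧ Holds Γ p τ x (act Q a y) := by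
  simp [final, Sentence.Realize, Formula.Realize, BoundedFormula.realize_iSup, snoc_three,
    realize_fact, realize_fn, realize_bv]

/-- **The axioms mean what they say.** -/
theorem realize_machineSentence : D ⊨ machineSentence M ↔ IsModel M D := by
  have hi : D ⊨ irrefl (Γ := Γ) (Q := Q) ↔ ∀ x : D, ¬Before Γ Q x x := by
    simp [irrefl, Sentence.Realize, Formula.Realize, realize_bef, realize_bv, Fin.snoc]
  have ht : D ⊨ trans (Γ := Γ) (Q := Q) ↔
      ∀ x y z : D, Before Γ Q x y → Before Γ Q y z → Before Γ Q x z := by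
    simp [trans, Sentence.Realize, Formula.Realize, realize_bef, realize_bv, snoc_three]
  have hbot : ∀ a : Γ, D ⊨ botFixed (Q := Q) a ↔ act Q a (pt Γ Q 1 : D) = pt Γ Q 1 := fun a => by
    simp [botFixed, Sentence.Realize, Formula.Realize, realize_fn, realize_cst, realize_equal]
  have hbl : D ⊨ blankFixed (Γ := Γ) (Q := Q) ↔ act Q (default : Γ) (pt Γ Q 0 : D) = pt Γ Q 0 := by
    simp [blankFixed, Sentence.Realize, Formula.Realize, realize_fn, realize_cst, realize_equal]
  have hne : D ⊨ blankNeBot (Γ := Γ) (Q := Q) ↔ (pt Γ Q 0 : D) ≠ pt Γ Q 1 := by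
    simp [blankNeBot, Sentence.Realize, Formula.Realize, realize_cst, realize_equal]
  have hI : ∀ {β : Type} [Finite β] (f : β → (Lang Γ Q).Sentence),
      D ⊨ (BoundedFormula.iInf f : (Lang Γ Q).Sentence) ↔ ∀ b, D ⊨ f b :=
    fun _ => BoundedFormula.realize_iInf
  simp only [machineSentence, Sentence.realize_inf, hI, Prod.forall, hi, ht, hbot, hbl, hne,
    realize_separated, realize_justified, realize_final]
  exact ⟨fun ⟨⟨⟨⟨⟨⟨⟨a, b⟩, c⟩, d⟩, e⟩, f⟩, g⟩, h⟩ => ⟨a, b, c, d, e, f, g, h⟩,
    fun ⟨a, b, c, d, e, f, g, h⟩ => ⟨⟨⟨⟨⟨⟨⟨a, b⟩, c⟩, d⟩, e⟩, f⟩, g⟩, h⟩⟩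

theorem realize_haltingSentence (w : List Γ) : D ⊨ haltingSentence M w ↔
    IsModel M D ∧ tapePoint Q w = (pt Γ Q 2 : D) := by
  rw [haltingSentence, Sentence.realize_inf, realize_machineSentence]
  simp [inputEquation, Sentence.Realize, Formula.Realize, realize_tapeTerm, realize_cst,
    realize_equal]

section Sound

variable {M} (h : IsModel M D)
include h

omit [DecidableEq Γ] [DecidableEq Q] in
/-- A half tape in range has the head and the tail of its point. -/
theorem IsModel.head_tail {v : List Γ} {a : Γ} {y : D} (hv : tapePoint Q v = act Q a y)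
    (hy : act Q a y ≠ pt Γ Q 1) : v.headI = a ∧ tapePoint Q v.tail = y := by
  have e : act Q v.headI (tapePoint Q v.tail) = act Q a y := by
    refine Eq.trans ?_ hv
    cases v with
    | nil => exact h.blank_fixed
    | cons b v => rfl
  exact (h.separated _ _ _ _ e).resolve_left (e ▸ hy)

omit [DecidableEq Γ] [DecidableEq Q] in
/-- **A finite model gives a halting run.** -/
theorem IsModel.halts [Finite D] {w : List Γ} (hw : tapePoint Q w = (pt Γ Q 2 : D)) :
    (StateTransition.eval (TM0.step M)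
      ⟨default, Tape.mk' (ListBlank.mk []) (ListBlank.mk w)⟩).Dom := by
  have : Std.Irrefl (Before (D := D) Γ Q) := ⟨h.irrefl⟩
  have : IsTrans D (Before (D := D) Γ Q) := ⟨h.trans⟩
  have wf : WellFounded (Before (D := D) Γ Q) := Finite.wellFounded_of_trans_of_irrefl _
  have key : ∀ τ, ∀ (q : Q) (x y : D), Holds Γ q τ x y → ∃ u v : List Γ,
      tapePoint Q u = x ∧ tapePoint Q v = y ∧
      StateTransition.Reaches (TM0.step M) ⟨default, Tape.mk' (ListBlank.mk []) (ListBlank.mk w)⟩
        ⟨q, Tape.mk' (ListBlank.mk u) (ListBlank.mk v)⟩ := by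
    intro τ
    induction τ using wf.induction with
    | _ τ ih =>
      intro q x y hq
      obtain ⟨-, -, ⟨rfl, rfl, rfl⟩ | ⟨t, z, ht, p, a, hpa⟩⟩ := h.justified q τ x y hq
      · exact ⟨[], w, rfl, hw, .refl⟩
      rcases hpa with ⟨b, hM, rfl, hp⟩ | ⟨hM, rfl, hp⟩ | ⟨hM, c, rfl, hp⟩
      · obtain ⟨u, v, hu, hv, hr⟩ := ih t ht p _ _ hp
        obtain ⟨rfl, hv'⟩ := h.head_tail hv (h.justified p t _ _ hp).2.1
        refine ⟨u, b :: v.tail, hu, congrArg (act Q b) hv', hr.tail ?_⟩
        simp [TM0.step, hM]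
      · obtain ⟨u, v, hu, hv, hr⟩ := ih t ht p _ _ hp
        obtain ⟨rfl, hv'⟩ := h.head_tail hv (h.justified p t _ _ hp).2.1
        refine ⟨v.headI :: u, v.tail, congrArg (act Q _) hu, hv', hr.tail ?_⟩
        simp [TM0.step, hM]
      · obtain ⟨u, v, hu, hv, hr⟩ := ih t ht p _ _ hp
        obtain ⟨hx, hy, -⟩ := h.justified p t _ _ hp
        obtain ⟨rfl, -⟩ := h.head_tail hv hy
        obtain ⟨rfl, hu'⟩ := h.head_tail hu hx
        refine ⟨u.tail, u.headI :: v, hu', congrArg (act Q _) hv, hr.tail ?_⟩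
        simp [TM0.step, hM]
  obtain ⟨p, a, τ, x, y, hM, hp⟩ := h.final
  obtain ⟨u, v, -, hv, hr⟩ := key τ p _ _ hp
  obtain ⟨rfl, -⟩ := h.head_tail hv (h.justified p τ _ _ hp).2.1
  exact Part.dom_iff_mem.2 ⟨_, StateTransition.mem_eval.2 ⟨hr, by simp [TM0.step, hM]⟩⟩

end Sound

end FA.Trakhtenbrot
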