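import Mathlib.Data.Fintype.Option
import Mathlib.Data.Fintype.Sum
import Mathlib.Data.Finite.Sum
import Mathlib.Data.Finite.Prod
import Mathlib.Data.Set.Finite.Lattice
import Fermat.Agent.Trakhtenbrot.Semantics

/-!
# A halting run gives a finite model

The points are the half tapes of the run with their tails, the absorbing point and the times of the
run.
-/

set_option autoImplicit false

namespace FA.Trakhtenbrot

open FirstOrder Language Turing StateTransition

variable {Γ : Type} [Inhabited Γ]

/-- Each half tape lies in a finite set closed under the tail. -/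
theorem exists_tail_closed (l : ListBlank Γ) :
    ∃ T : Set (ListBlank Γ), T.Finite ∧ l ∈ T ∧ ∀ x ∈ T, x.tail ∈ T := by
  induction l using ListBlank.induction_on with
  | h v =>
    refine ⟨ListBlank.mk '' {s | s ∈ v.tails}, (List.finite_toSet _).image _,
      ⟨v, (List.mem_tails _ _).2 (List.suffix_refl _), rfl⟩, ?_⟩
    rintro _ ⟨s, hs, rfl⟩
    exact ⟨s.tail, (List.mem_tails _ _).2 ((List.tail_suffix s).trans ((List.mem_tails _ _).1 hs)),
      (ListBlank.tail_mk s).symm⟩

variable {Q : Type} [Inhabited Q]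

/-- The times of a run. -/
theorem exists_run (M : TM0.Machine Γ Q) {c₀ d : TM0.Cfg Γ Q}
    (h : Reaches (TM0.step M) c₀ d) : ∃ (N : ℕ) (c : ℕ → TM0.Cfg Γ Q),
      c 0 = c₀ ∧ c N = d ∧ ∀ i < N, TM0.step M (c i) = some (c (i + 1)) := by
  induction h with
  | refl => exact ⟨0, fun _ => c₀, rfl, rfl, fun i hi => absurd hi (Nat.not_lt_zero i)⟩
  | @tail b e _ hbe ih =>
    obtain ⟨N, c, h0, hN, hc⟩ := ih
    refine ⟨N + 1, fun i => if i ≤ N then c i else e, by simpa using h0, by simp, fun i hi => ?_⟩
    rcases Nat.lt_succ_iff_lt_or_eq.1 hi with hi' | rfl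
    · simp [hi'.le, Nat.succ_le_of_lt hi', hc i hi']
    · simp only [le_refl, if_true, hN, if_neg (Nat.not_succ_le_self i)]
      exact hbe

section Model

variable [Fintype Γ] [Fintype Q] (T : Set (ListBlank Γ)) (N : ℕ)

/-- The points: half tapes with an absorbing point, and times. -/
abbrev RunPoint : Type := Option T ⊕ Fin (N + 1)

/-- The point of a half tape, absorbing outside the set. -/
noncomputable def runPoint (x : ListBlank Γ) : RunPoint T N :=
  letI := Classical.propDecidable (x ∈ T)
  .inl (if h : x ∈ T then some ⟨x, h⟩ else none)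

/-- A letter put before a half tape. -/
noncomputable def runPush (a : Γ) : RunPoint T N → RunPoint T N
  | .inl (some x) => runPoint T N (ListBlank.cons a x.1)
  | _ => .inl none

/-- The structure of a run. -/
@[instance_reducible]
noncomputable def runStructure (c : ℕ → TM0.Cfg Γ Q) (z : ListBlank Γ) :
    (Lang Γ Q).Structure (RunPoint T N) where
  funMap {k} := match k with
    | 0 => fun (i : Fin 3) _ => ![runPoint T N (ListBlank.mk []), .inl none, runPoint T N z] i
    | 1 => fun (a : Fin (Fintype.card Γ)) xs => runPush T N ((Fintype.equivFin Γ).symm a) (xs 0)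
    | _ + 2 => fun f _ => f.elim
  RelMap {k} := match k with
    | 0 => fun r _ => r.elim
    | 1 => fun r _ => r.elim
    | 2 => fun _ xs => ∃ i j : Fin (N + 1), xs 0 = .inr i ∧ xs 1 = .inr j ∧ i < j
    | 3 => fun (q : Fin (Fintype.card Q)) xs => ∃ i : Fin (N + 1), xs 0 = .inr i ∧
        (c i).q = (Fintype.equivFin Q).symm q ∧ xs 1 = runPoint T N (c i).Tape.left ∧
        xs 2 = runPoint T N (c i).Tape.right₀
    | _ + 4 => fun r _ => r.elim

omit [Fintype Γ] in
theorem runPoint_of_mem {x : ListBlank Γ} (hx : x ∈ T) :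
    runPoint T N x = .inl (some ⟨x, hx⟩) := by
  simp [runPoint, hx]

omit [Fintype Γ] in
theorem runPoint_ne_bot {x : ListBlank Γ} (hx : x ∈ T) : runPoint T N x ≠ .inl none := by
  simp [runPoint_of_mem T N hx]

omit [Fintype Γ] in
theorem runPush_point {x : ListBlank Γ} (hx : x ∈ T) (a : Γ) :
    runPush T N a (runPoint T N x) = runPoint T N (ListBlank.cons a x) := by
  rw [runPoint_of_mem T N hx]; rfl

omit [Fintype Γ] in
theorem runPush_eq {a : Γ} {d : RunPoint T N} (h : runPush T N a d ≠ .inl none) :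
    ∃ (x : ListBlank Γ) (hx : x ∈ T) (hax : ListBlank.cons a x ∈ T),
      d = .inl (some ⟨x, hx⟩) ∧ runPush T N a d = .inl (some ⟨_, hax⟩) := by
  rcases d with (_ | x) | i
  · exact absurd rfl h
  · by_cases hax : ListBlank.cons a x.1 ∈ T
    · exact ⟨x.1, x.2, hax, rfl, runPoint_of_mem T N hax⟩
    · exact absurd (by simp [runPush, runPoint, hax]) h
  · exact absurd rfl h

variable [DecidableEq Γ] [DecidableEq Q]

/-- **A halting run gives a finite model.** -/
theorem exists_model (M : TM0.Machine Γ Q) (w : List Γ)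
    (h : (eval (TM0.step M) ⟨default, Tape.mk' (ListBlank.mk []) (ListBlank.mk w)⟩).Dom) :
    ∃ (D : Type) (_ : Finite D) (_ : Nonempty D) (_ : (Lang Γ Q).Structure D),
      D ⊨ haltingSentence M w := by
  obtain ⟨d, hd⟩ := Part.dom_iff_mem.1 h
  obtain ⟨hr, hstop⟩ := mem_eval.1 hd
  obtain ⟨N, c, h0, hN, hc⟩ := exists_run M hr
  choose C hCf hCmem hCtail using exists_tail_closed (Γ := Γ)
  let T : Set (ListBlank Γ) := ⋃ i : Fin (N + 1), C (c i).Tape.left ∪ C (c i).Tape.right₀
  have hTf : T.Finite := Set.finite_iUnion fun i => (hCf _).union (hCf _)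
  have hTt : ∀ x ∈ T, x.tail ∈ T := by
    intro x hx
    obtain ⟨i, hx | hx⟩ := Set.mem_iUnion.1 hx
    · exact Set.mem_iUnion.2 ⟨i, .inl (hCtail _ x hx)⟩
    · exact Set.mem_iUnion.2 ⟨i, .inr (hCtail _ x hx)⟩
  have hL : ∀ i, i ≤ N → (c i).Tape.left ∈ T := fun i hi =>
    Set.mem_iUnion.2 ⟨⟨i, Nat.lt_succ_of_le hi⟩, .inl (hCmem _)⟩
  have hR0 : ∀ i, i ≤ N → (c i).Tape.right₀ ∈ T := fun i hi =>
    Set.mem_iUnion.2 ⟨⟨i, Nat.lt_succ_of_le hi⟩, .inr (hCmem _)⟩
  have hR : ∀ i, i ≤ N → (c i).Tape.right ∈ T := fun i hi => by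
    simpa [Tape.right₀] using hTt _ (hR0 i hi)
  have hLt : ∀ i, i ≤ N → (c i).Tape.left.tail ∈ T := fun i hi => hTt _ (hL i hi)
  have hnil : (ListBlank.mk [] : ListBlank Γ) ∈ T := by simpa [h0] using hL 0 (Nat.zero_le N)
  have hw : ListBlank.mk w ∈ T := by simpa [h0] using hR0 0 (Nat.zero_le N)
  let iS := runStructure T N c (ListBlank.mk w)
  have : Finite T := hTf.to_subtype
  have hA : ∀ a d, act Q a d = runPush T N a d := fun a d =>
    congrArg (fun b => runPush T N b d) ((Fintype.equivFin Γ).symm_apply_apply a)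
  have hH : ∀ q τ x y, Holds Γ q τ x y ↔ ∃ i : Fin (N + 1), τ = .inr i ∧ (c i).q = q ∧
      x = runPoint T N (c i).Tape.left ∧ y = runPoint T N (c i).Tape.right₀ := by
    intro q τ x y
    have e : Holds Γ q τ x y ↔ ∃ i : Fin (N + 1), τ = .inr i ∧
        (c i).q = (Fintype.equivFin Q).symm (Fintype.equivFin Q q) ∧
        x = runPoint T N (c i).Tape.left ∧ y = runPoint T N (c i).Tape.right₀ := Iff.rfl
    simpa using e
  have hB : ∀ x y : RunPoint T N, Before Γ Q x y ↔
      ∃ i j : Fin (N + 1), x = Sum.inr i ∧ y = Sum.inr j ∧ i < j := fun x y => Iff.rfl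
  refine ⟨RunPoint T N, inferInstance, ⟨.inl none⟩, iS, (realize_haltingSentence M w).2 ⟨?_, ?_⟩⟩
  · refine ⟨fun a => hA a _, ?_, fun a b x y e => ?_, runPoint_ne_bot T N hnil, fun x hx => ?_,
      fun x y z hxy hyz => ?_, fun q τ x y hq => ?_, ?_⟩
    · rw [hA]
      refine (runPush_point T N hnil default).trans (congrArg (runPoint T N) ?_)
      simpa using ListBlank.cons_head_tail (ListBlank.mk ([] : List Γ))
    · refine or_iff_not_imp_left.2 fun hne => ?_
      rw [hA, hA] at e
      rw [hA] at hne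
      obtain ⟨x', _, _, rfl, ex⟩ := runPush_eq T N hne
      obtain ⟨y', _, _, rfl, ey⟩ := runPush_eq T N (e ▸ hne)
      rw [ex, ey] at e
      have e' : ListBlank.cons a x' = ListBlank.cons b y' := by simpa using e
      refine ⟨by simpa using congrArg ListBlank.head e', ?_⟩
      simpa using congrArg ListBlank.tail e'
    · obtain ⟨i, j, hi, hj, hij⟩ := (hB x x).1 hx
      simp [Sum.inr.inj (hi.symm.trans hj)] at hij
    · obtain ⟨i, j, hi, hj, hij⟩ := (hB x y).1 hxy
      obtain ⟨j', k, hj', hk, hjk⟩ := (hB y z).1 hyz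
      obtain rfl := Sum.inr.inj (hj.symm.trans hj')
      exact (hB x z).2 ⟨i, k, hi, hk, hij.trans hjk⟩
    · obtain ⟨⟨i, hi⟩, rfl, rfl, rfl, rfl⟩ := (hH q τ x y).1 hq
      have hiN : i ≤ N := Nat.le_of_lt_succ hi
      refine ⟨runPoint_ne_bot T N (hL i hiN), runPoint_ne_bot T N (hR0 i hiN), ?_⟩
      cases i with
      | zero =>
        refine .inl ⟨by rw [h0], ?_, ?_⟩
        · change _ = runPoint T N (ListBlank.mk [])
          simp [h0]
        · change _ = runPoint T N (ListBlank.mk w)
          simp [h0]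
      | succ j =>
        have hjN : j ≤ N := (Nat.le_succ j).trans hiN
        have hbef : Before Γ Q (Sum.inr ⟨j, Nat.lt_succ_of_le hjN⟩ : RunPoint T N)
            (.inr ⟨j + 1, hi⟩) := (hB _ _).2 ⟨_, _, rfl, rfl, Fin.mk_lt_mk.2 j.lt_succ_self⟩
        dsimp only
        have hstep := hc j hiN
        have hh : ∀ u v, u = runPoint T N (c j).Tape.left → v = runPoint T N (c j).Tape.right₀ →
            Holds Γ (c j).q (Sum.inr ⟨j, Nat.lt_succ_of_le hjN⟩ : RunPoint T N) u v :=
          fun u v hu hv => (hH _ _ _ _).2 ⟨_, rfl, rfl, hu, hv⟩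
        rcases hM : M (c j).q (c j).Tape.head with _ | ⟨p, ⟨dir⟩ | b⟩
        · simp [TM0.step, hM] at hstep
        · simp only [TM0.step, hM, Option.map_some, Option.some.injEq] at hstep
          cases dir with
          | left =>
            refine .inr ⟨_, runPoint T N (c j).Tape.right, hbef, (c j).q, (c j).Tape.head,
              .inr (.inr ⟨by rw [hM, ← hstep], (c j).Tape.left.head, ?_, hh _ _ ?_ ?_⟩)⟩
            · rw [hA, hA, runPush_point T N (hR j hjN), ← hstep]
              exact (runPush_point T N (hR0 j hjN) _).symm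
            · rw [hA, ← hstep]
              exact (runPush_point T N (hLt j hjN) _).trans (by rw [ListBlank.cons_head_tail])
            · rw [hA, runPush_point T N (hR j hjN)]; rfl
          | right =>
            refine .inr ⟨_, runPoint T N (c j).Tape.left, hbef, (c j).q, (c j).Tape.head,
              .inr (.inl ⟨by rw [hM, ← hstep], ?_, hh _ _ rfl ?_⟩)⟩
            · rw [hA, runPush_point T N (hL j hjN), ← hstep]; rfl
            · have e : (c (j + 1)).Tape.right₀ = (c j).Tape.right := by
                rw [← hstep]; exact ListBlank.cons_head_tail _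
              rw [hA, e, runPush_point T N (hR j hjN)]; rfl
        · simp only [TM0.step, hM, Option.map_some, Option.some.injEq] at hstep
          refine .inr ⟨_, runPoint T N (c j).Tape.right, hbef, (c j).q, (c j).Tape.head,
            .inl ⟨b, by rw [hM, ← hstep], ?_, hh _ _ ?_ ?_⟩⟩
          · rw [hA, runPush_point T N (hR j hjN), ← hstep]; rfl
          · rw [← hstep]; rfl
          · rw [hA, runPush_point T N (hR j hjN)]; rfl
    · refine ⟨(c N).q, (c N).Tape.head, .inr ⟨N, N.lt_succ_self⟩,
        runPoint T N (c N).Tape.left, runPoint T N (c N).Tape.right, ?_,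
        (hH _ _ _ _).2 ⟨_, rfl, rfl, rfl, ?_⟩⟩
      · rw [← hN] at hstop
        simpa [TM0.step] using hstop
      · rw [hA, runPush_point T N (hR N le_rfl)]; rfl
  · have key : ∀ s : List Γ, ListBlank.mk s ∈ T →
        tapePoint Q s = (runPoint T N (ListBlank.mk s) : RunPoint T N) := by
      intro s
      induction s with
      | nil => exact fun _ => rfl
      | cons a s ih =>
        intro hs
        have hs' : ListBlank.mk s ∈ T := by simpa using hTt _ hs
        change act Q a (tapePoint Q s) = _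
        rw [hA, ih hs', runPush_point T N hs']
        rfl
    exact key w hw

end Model

end FA.Trakhtenbrot
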