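import Fermat.Agent.Undecidability.UnaryLogic
import Fermat.Agent.Trakhtenbrot.Language

/-!
# The codes of the sentences of a machine

Only one term depends on the word, so the code is a fixed list of symbols put before the code of a
term, whose symbols are read from the word.
-/

set_option autoImplicit false

namespace FA.Trakhtenbrot

open FirstOrder Language Turing

variable {Γ Q : Type} [Fintype Γ] [Fintype Q] [Primcodable Γ]

omit [Primcodable Γ] in
/-- The symbols of the term of a half tape are its letters. -/
theorem listEncode_tapeTerm {α : Type} : ∀ w : List Γ,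
    (tapeTerm (Q := Q) (α := α) w).listEncode =
      w.map (fun a => Sum.inr ⟨1, Fintype.equivFin Γ a⟩) ++ (cst Γ Q 0).listEncode
  | [] => rfl
  | a :: w => by
    change (fn Q a (tapeTerm (Q := Q) w)).listEncode = _
    simp [fn, Term.listEncode, listEncode_tapeTerm w, List.finRange_succ]

theorem primrec_tapeTermCode :
    Primrec fun w : List Γ => Encodable.encode (tapeTerm (Q := Q) (α := Empty ⊕ Fin 0) w) := by
  let sym : Γ → ℕ := fun a => Encodable.encode
    (Sum.inr ⟨1, Fintype.equivFin Γ a⟩ : (Empty ⊕ Fin 0) ⊕ (Σ i, (Lang Γ Q).Functions i))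
  have hc : Primrec sym := Primrec.dom_finite _
  refine (Primrec.list_foldr (f := fun w : List Γ => w)
    (g := fun _ => Encodable.encode (cst Γ Q 0 (α := Empty ⊕ Fin 0)).listEncode)
    (h := fun _ p => (Nat.pair (sym p.1) p.2).succ) Primrec.id (Primrec.const _)
    (Primrec.succ.comp (Primrec₂.natPair.comp (hc.comp (Primrec.fst.comp Primrec.snd))
      (Primrec.snd.comp Primrec.snd))).to₂).of_eq fun w => ?_
  change _ = Encodable.encode (tapeTerm (Q := Q) (α := Empty ⊕ Fin 0) w).listEncode
  rw [listEncode_tapeTerm, Undecidability.encode_append, List.map_map, List.foldr_map]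
  rfl

/-- The code of an equation with the input inside fixed lists of symbols. -/
theorem primrec_inputCode (pre post : List ((Σ k, (Lang Γ Q).Term (Empty ⊕ Fin k)) ⊕
    ((Σ n, (Lang Γ Q).Relations n) ⊕ ℕ))) :
    Primrec fun w : List Γ =>
      Encodable.encode (pre ++ BoundedFormula.listEncode (inputEquation (Q := Q) w) ++ post) := by
  have hx : Primrec fun w : List Γ =>
      (Nat.pair (2 * Nat.pair 0 (Encodable.encode (tapeTerm (Q := Q) (α := Empty ⊕ Fin 0) w)))
        (Encodable.encode ((Sum.inl ⟨0, cst Γ Q 2⟩ : (Σ k, (Lang Γ Q).Term (Empty ⊕ Fin k)) ⊕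
          ((Σ n, (Lang Γ Q).Relations n) ⊕ ℕ)) :: post))).succ :=
    Primrec.succ.comp (Primrec₂.natPair.comp (Primrec.nat_mul.comp (Primrec.const 2)
      (Primrec₂.natPair.comp (Primrec.const 0) primrec_tapeTermCode)) (Primrec.const _))
  refine ((Undecidability.primrec_encode_foldr (pre.map Encodable.encode)).comp hx).of_eq
    fun w => ?_
  have e : pre ++ BoundedFormula.listEncode (inputEquation (Q := Q) w) ++ post =
      pre ++ Sum.inl ⟨0, tapeTerm w⟩ :: Sum.inl ⟨0, cst Γ Q 2⟩ :: post := by
    simp [inputEquation, BoundedFormula.listEncode]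
  rw [e, Undecidability.encode_append]
  congr 1

variable [Inhabited Γ] [Inhabited Q] [DecidableEq Γ] [DecidableEq Q]

/-- **The code of the sentence is primitive recursive in the word.** -/
theorem primrec_haltingCode (M : TM0.Machine Γ Q) :
    Primrec fun w => sentenceCode (haltingSentence M w) :=
  (primrec_inputCode (Sum.inr (Sum.inr 0) :: Sum.inr (Sum.inr 0) ::
      (BoundedFormula.listEncode (machineSentence M) ++ [Sum.inr (Sum.inr 0)]))
    [Sum.inr (Sum.inr 2), Sum.inr (Sum.inr 2)]).of_eq fun w => by
      refine congrArg Encodable.encode ?_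
      simp [haltingSentence, BoundedFormula.listEncode, min, BoundedFormula.not, Bot.bot]

/-- **The code of the negation is primitive recursive in the word.** -/
theorem primrec_notHaltingCode (M : TM0.Machine Γ Q) :
    Primrec fun w => sentenceCode (Formula.not (haltingSentence M w)) :=
  (primrec_inputCode (Sum.inr (Sum.inr 0) :: Sum.inr (Sum.inr 0) :: Sum.inr (Sum.inr 0) ::
      (BoundedFormula.listEncode (machineSentence M) ++ [Sum.inr (Sum.inr 0)]))
    [Sum.inr (Sum.inr 2), Sum.inr (Sum.inr 2), Sum.inr (Sum.inr 2)]).of_eq fun w => by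
      refine congrArg Encodable.encode ?_
      simp [haltingSentence, BoundedFormula.listEncode, min, BoundedFormula.not, Bot.bot]

end FA.Trakhtenbrot
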